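/-
Row S26, block CUBE, leaf C4b (helper507): parts of the assembly.

* **G** `exists_kpoint_lift`: over an algebraically closed field, `K`-points lift along finite
  surjective morphisms of `K`-schemes.
* **T3** `integralClosure_curve`: for a finitely generated domain `A` over a perfect field `K`
  and a field `L`, algebraic over `A`, essentially of finite type over `K`, of transcendence
  degree one, the integral closure of `A` in `L` is a Dedekind domain, not a field, finite over
  `A` and of finite type over `K`.  (So T2 applies to every chart of the normalisation.)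
-/
import Mathlib
import Fermat.Agent.S26.H626.FiniteIntegralClosure
import Fermat.Prelude.Def_AlgebraicGeometry_RelativeGroupLaw

set_option autoImplicit false
universe u

open Polynomial

namespace Fermat.Agent.S26.H507

section T3

variable (K : Type u) [Field K]
  (A : Type u) [CommRing A] [IsDomain A] [Algebra K A] [Algebra.FiniteType K A]
  (L : Type u) [Field L] [Algebra A L] [Module.IsTorsionFree A L]
  [Algebra K L] [IsScalarTower K A L]

omit [Algebra.FiniteType K A] in
/-- Noether normalisation of a curve has one variable. -/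
theorem eq_one_of_trdeg_eq_one (hL : Algebra.IsAlgebraic A L) (htr : Algebra.trdeg K L = 1)
    (s : ℕ) (g : MvPolynomial (Fin s) K →ₐ[K] A) (hg : Function.Injective g)
    (hint : g.IsIntegral) : s = 1 := by
  letI : Algebra (MvPolynomial (Fin s) K) A := g.toRingHom.toAlgebra
  have : IsScalarTower K (MvPolynomial (Fin s) K) A :=
    IsScalarTower.of_algebraMap_eq fun c => (g.commutes c).symm
  letI : Algebra (MvPolynomial (Fin s) K) L :=
    ((algebraMap A L).comp g.toRingHom).toAlgebra
  have : IsScalarTower (MvPolynomial (Fin s) K) A L := IsScalarTower.of_algebraMap_eq fun _ => rfl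
  have : IsScalarTower K (MvPolynomial (Fin s) K) L := IsScalarTower.of_algebraMap_eq fun c => by
    rw [IsScalarTower.algebraMap_apply K A L, IsScalarTower.algebraMap_apply K
      (MvPolynomial (Fin s) K) A, IsScalarTower.algebraMap_apply (MvPolynomial (Fin s) K) A L]
  have hAL : Function.Injective (algebraMap A L) :=
    Module.isTorsionFree_iff_algebraMap_injective.1 inferInstance
  have hinj : Function.Injective (algebraMap (MvPolynomial (Fin s) K) L) := hAL.comp hg
  have : FaithfulSMul (MvPolynomial (Fin s) K) L := (faithfulSMul_iff_algebraMap_injective _ _).2 hinj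
  have : Algebra.IsIntegral (MvPolynomial (Fin s) K) A := ⟨hint⟩
  have : Algebra.IsAlgebraic (MvPolynomial (Fin s) K) L :=
    Algebra.IsIntegral.trans_isAlgebraic (MvPolynomial (Fin s) K) A L
  have h1 := trdeg_add_eq K (MvPolynomial (Fin s) K) (A := L)
  rw [trdeg_eq_zero (R := MvPolynomial (Fin s) K) (A := L), add_zero, htr,
    MvPolynomial.trdeg_of_isDomain] at h1
  simpa using h1

/-- **T3.** The integral closure of a curve chart in (a finite extension of) its function field
is a Dedekind domain, not a field, finite over the chart, of finite type over `K`. -/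
theorem integralClosure_curve [PerfectField K] (hL : Algebra.IsAlgebraic A L)
    (hfg : Algebra.EssFiniteType K L) (htr : Algebra.trdeg K L = 1) :
    IsDedekindDomain (integralClosure A L) ∧ ¬ IsField (integralClosure A L) ∧
      Module.Finite A (integralClosure A L) ∧ Algebra.FiniteType K (integralClosure A L) := by
  have hfin : Module.Finite A (integralClosure A L) :=
    H626.finite_integralClosure K A L hL hfg
  have hAL : Function.Injective (algebraMap A L) :=
    Module.isTorsionFree_iff_algebraMap_injective.1 inferInstance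
  obtain ⟨s, g, hg, hint⟩ := exists_integral_inj_algHom_of_fg K A
  have hs : s = 1 := eq_one_of_trdeg_eq_one K A L hL htr s g hg hint
  subst hs
  let e : MvPolynomial (Fin 1) K ≃ₐ[K] K[X] := MvPolynomial.uniqueAlgEquiv K (Fin 1)
  let h : K[X] →ₐ[K] A := g.comp e.symm.toAlgHom
  have hh : Function.Injective h := hg.comp e.symm.injective
  have hhint : h.toRingHom.IsIntegral :=
    RingHom.IsIntegral.trans (e.symm : K[X] →+* MvPolynomial (Fin 1) K) g.toRingHom
      (RingHom.isIntegral_of_surjective _ e.symm.surjective) hint
  letI : Algebra K[X] A := h.toRingHom.toAlgebra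
  letI : Algebra K[X] (integralClosure A L) :=
    ((algebraMap A (integralClosure A L)).comp h.toRingHom).toAlgebra
  have : IsScalarTower K[X] A (integralClosure A L) := IsScalarTower.of_algebraMap_eq fun _ => rfl
  have : Algebra.IsIntegral K[X] A := ⟨hhint⟩
  have : Algebra.IsIntegral K[X] (integralClosure A L) :=
    Algebra.IsIntegral.trans (R := K[X]) A
  have hdim : Ring.DimensionLEOne (integralClosure A L) :=
    Ring.DimensionLEOne.of_isIntegral K[X] (integralClosure A L)
  have hnoeth : IsNoetherianRing A := Algebra.FiniteType.isNoetherianRing K A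
  have hnoethB : IsNoetherianRing (integralClosure A L) :=
    IsNoetherianRing.of_finite A (integralClosure A L)
  have hfrac : IsFractionRing (integralClosure A L) L :=
    integralClosure.isFractionRing_of_algebraic
      (fun x hx => hAL (by rw [hx, map_zero]))
  have hic : IsIntegrallyClosed (integralClosure A L) :=
    (isIntegrallyClosed_iff_isIntegrallyClosedIn L).2 inferInstance
  have hinjB : Function.Injective (algebraMap K[X] (integralClosure A L)) := by
    have h1 : Function.Injective (algebraMap A (integralClosure A L)) := by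
      intro x y hxy
      apply hAL
      have := congrArg (algebraMap (integralClosure A L) L) hxy
      simpa [← IsScalarTower.algebraMap_apply] using this
    exact h1.comp hh
  refine ⟨{ }, ?_, hfin, ?_⟩
  · intro hB
    exact Polynomial.not_isField K (isField_of_isIntegral_of_isField hinjB hB)
  · have : Algebra.FiniteType A (integralClosure A L) := inferInstance
    exact Algebra.FiniteType.trans (S := A) inferInstance inferInstance

end T3

section G

open CategoryTheory CategoryTheory.Limits AlgebraicGeometry NeronModelInfra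


/-- A nonzero finite algebra over an algebraically closed field has a rational point. -/
theorem exists_retraction_of_finite {K E : Type u} [Field K] [IsAlgClosed K] [CommRing E]
    [Nontrivial E] (ψ : K →+* E) (hψ : ψ.Finite) :
    ∃ φ : E →+* K, φ.comp ψ = RingHom.id K := by
  obtain ⟨m, hm⟩ := Ideal.exists_maximal E
  let _ : Field (E ⧸ m) := Ideal.Quotient.field m
  let θ : K →+* E ⧸ m := (Ideal.Quotient.mk m).comp ψ
  have hθ : θ.Finite := RingHom.Finite.comp
    (RingHom.Finite.of_surjective _ Ideal.Quotient.mk_surjective) hψ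
  let _ : Algebra K (E ⧸ m) := θ.toAlgebra
  have : Module.Finite K (E ⧸ m) := hθ
  have hbij : Function.Bijective (algebraMap K (E ⧸ m)) :=
    IsAlgClosed.algebraMap_bijective_of_isIntegral
  let e : K ≃+* E ⧸ m := RingEquiv.ofBijective θ hbij
  refine ⟨(e.symm : E ⧸ m →+* K).comp (Ideal.Quotient.mk m), ?_⟩
  ext c
  simp only [RingHom.coe_comp, RingHom.coe_coe, Function.comp_apply, RingHom.id_apply]
  exact e.symm_apply_apply c

variable {K : Type u} [Field K] [IsAlgClosed K]

/-- **G.** `K`-points lift along finite surjective morphisms (`K` algebraically closed). -/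
theorem exists_kpoint_lift {C Γ : Scheme.{u}} (c : C ⟶ Spec (CommRingCat.of K))
    (γ : Γ ⟶ Spec (CommRingCat.of K)) (ν : C ⟶ Γ) (hν : ν ≫ γ = c) [IsFinite ν]
    (hsurj : Function.Surjective ν)
    (x : SchemeHomOver (𝟙 (Spec (CommRingCat.of K))) γ) :
    ∃ y : SchemeHomOver (𝟙 (Spec (CommRingCat.of K))) c, y.1 ≫ ν = x.1 := by
  have : Surjective ν := ⟨hsurj⟩
  let Z := pullback ν x.1
  let f : Z ⟶ Spec (CommRingCat.of K) := pullback.snd ν x.1
  have hf : IsFinite f := inferInstance
  have hfs : Surjective f := inferInstance
  have hZ : IsAffine Z := isAffine_of_isAffineHom f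
  have hne : Nonempty Z := by
    obtain ⟨z, -⟩ := hfs.surj (default : Spec (CommRingCat.of K))
    exact ⟨z⟩
  have hne' : Nonempty (⊤ : Z.Opens) := ⟨⟨hne.some, trivial⟩⟩
  have : Nontrivial Γ(Z, ⊤) := @Scheme.component_nontrivial Z ⊤ hne'
  let ψ : CommRingCat.of K ⟶ Γ(Z, ⊤) := (Scheme.ΓSpecIso (CommRingCat.of K)).inv ≫ f.appTop
  have hψ : ψ.hom.Finite := by
    refine RingHom.Finite.comp f.finite_appTop (RingHom.Finite.of_surjective _ ?_)
    exact (ConcreteCategory.bijective_of_isIso (Scheme.ΓSpecIso (CommRingCat.of K)).inv).2
  obtain ⟨φ, hφ⟩ := exists_retraction_of_finite ψ.hom hψ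
  let φ' : Γ(Z, ⊤) ⟶ CommRingCat.of K := CommRingCat.ofHom φ
  have hφ' : ψ ≫ φ' = 𝟙 _ := by
    ext a
    exact congrArg (fun g : K →+* K => g a) hφ
  let s : Spec (CommRingCat.of K) ⟶ Z := Spec.map φ' ≫ Z.isoSpec.inv
  have hfact : f = Z.isoSpec.hom ≫ Spec.map ψ := by
    have h1 := Scheme.isoSpec_hom_naturality f
    rw [Scheme.isoSpec_Spec_hom] at h1
    rw [Spec.map_comp, ← Category.assoc, h1, Category.assoc, ← Spec.map_comp,
      Iso.inv_hom_id, Spec.map_id, Category.comp_id]
  have hs : s ≫ f = 𝟙 _ := by
    rw [hfact]
    simp only [s, Category.assoc, Iso.inv_hom_id_assoc]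
    rw [← Spec.map_comp, hφ', Spec.map_id]
  refine ⟨⟨s ≫ pullback.fst ν x.1, ?_⟩, ?_⟩
  · calc (s ≫ pullback.fst ν x.1) ≫ c
        = s ≫ (pullback.fst ν x.1 ≫ ν) ≫ γ := by rw [← hν]; simp only [Category.assoc]
      _ = s ≫ (pullback.snd ν x.1 ≫ x.1) ≫ γ := by rw [pullback.condition]
      _ = (s ≫ f) ≫ x.1 ≫ γ := by simp only [Category.assoc, f]
      _ = 𝟙 _ := by rw [hs, x.2, Category.comp_id]
  · show (s ≫ pullback.fst ν x.1) ≫ ν = x.1
    rw [Category.assoc, pullback.condition, ← Category.assoc]
    rw [show s ≫ pullback.snd ν x.1 = 𝟙 _ from hs, Category.id_comp]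

end G

end Fermat.Agent.S26.H507
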