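/-
Row S26, block CUBE, leaf C4b / **T2** (helper507): regular ⇒ smooth for curves.

A Dedekind domain `R`, not a field, of finite type over an algebraically closed field `K` is
locally standard smooth of relative dimension one over `K`.

Route (Mathlib only): for a maximal ideal `m` choose `t ∈ m ∖ m²`; `K[X] → R`, `X ↦ t` is
injective (so `R` is flat over the PID `K[X]`), of finite presentation, and unramified at `m`
(`κ(m) = K`, `t R_m = m R_m`); hence étale on a basic open neighbourhood `D(f)` of `m`, i.e.
standard smooth of relative dimension `0` over `K[X]`, which is standard smooth of relative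
dimension `1` over `K`.

The statement `locally_isStandardSmooth_of_isDedekindDomain` is EXACTLY leaf T2 of
`origin/helper27:Fermat/Agent/S26/H27/C4bSpec.lean`.
-/
import Mathlib

set_option autoImplicit false
universe u

open Polynomial

namespace Fermat.Agent.S26.H507

/-! ## The polynomial ring is standard smooth of relative dimension one -/

theorem isStandardSmoothOfRelativeDimension_mvPolynomial_unit (K : Type u) [CommRing K]
    [Nontrivial K] :
    Algebra.IsStandardSmoothOfRelativeDimension 1 K (MvPolynomial Unit K) := by
  have : Algebra.IsStandardSmooth K (MvPolynomial Unit K) :=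
    Algebra.IsStandardSmooth.of_basis_kaehlerDifferential
      (KaehlerDifferential.mvPolynomialBasis K Unit) (by
        rintro _ ⟨i, rfl⟩
        exact ⟨MvPolynomial.X i, (KaehlerDifferential.mvPolynomialBasis_apply K Unit i).symm⟩)
  rw [Algebra.IsStandardSmoothOfRelativeDimension.iff_of_isStandardSmooth]
  rw [rank_eq_card_basis (KaehlerDifferential.mvPolynomialBasis K Unit)]
  simp

theorem isStandardSmoothOfRelativeDimension_polynomial (K : Type u) [CommRing K]
    [Nontrivial K] :
    Algebra.IsStandardSmoothOfRelativeDimension 1 K K[X] := by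
  have := isStandardSmoothOfRelativeDimension_mvPolynomial_unit K
  exact Algebra.IsStandardSmoothOfRelativeDimension.of_algEquiv 1
    (MvPolynomial.uniqueAlgEquiv K Unit)

/-! ## Closed points of a finite type algebra over an algebraically closed field -/

section Nullstellensatz

variable (K : Type u) [Field K] [IsAlgClosed K] (R : Type u) [CommRing R] [Algebra K R]
  [Algebra.FiniteType K R]

/-- Nullstellensatz: the residue field at a maximal ideal is `K`. -/
theorem bijective_algebraMap_quotient_of_isMaximal (m : Ideal R) [m.IsMaximal] :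
    Function.Bijective (algebraMap K (R ⧸ m)) := by
  letI : Field (R ⧸ m) := Ideal.Quotient.field m
  have : Algebra.FiniteType K (R ⧸ m) :=
    Algebra.FiniteType.of_surjective (Ideal.Quotient.mkₐ K m) (Ideal.Quotient.mkₐ_surjective K m)
  have : Module.Finite K (R ⧸ m) := finite_of_finite_type_of_isJacobsonRing K (R ⧸ m)
  exact IsAlgClosed.algebraMap_bijective_of_isIntegral

end Nullstellensatz

/-! ## Uniformisers in a Dedekind domain -/

section Dedekind

variable {R : Type u} [CommRing R] [IsDedekindDomain R]

theorem exists_mem_not_mem_sq (m : Ideal R) [m.IsMaximal] (h0 : m ≠ ⊥) :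
    ∃ t ∈ m, t ∉ m ^ 2 := by
  have h := Ideal.pow_succ_lt_pow (P := m) h0 1
  obtain ⟨t, ht, ht'⟩ := SetLike.exists_of_lt h
  exact ⟨t, by simpa using ht, by simpa using ht'⟩

/-- `t ∈ m ∖ m²` generates `m` locally at `m`. -/
theorem exists_mul_eq_mul_of_mem (m : Ideal R) [m.IsMaximal] {t : R} (ht : t ∈ m)
    (ht2 : t ∉ m ^ 2) : ∃ s, s ∉ m ∧ ∀ a ∈ m, ∃ b, s * a = t * b := by
  have hle : Ideal.span {t} ≤ m := (Ideal.span_singleton_le_iff_mem m).2 ht
  obtain ⟨J, hJ⟩ := Ideal.dvd_iff_le.2 hle
  have hJm : ¬ J ≤ m := by
    intro hJm
    apply ht2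
    have : Ideal.span {t} ≤ m ^ 2 := by
      rw [hJ, pow_two]
      exact Ideal.mul_mono_right hJm
    exact this (Ideal.mem_span_singleton_self t)
  obtain ⟨s, hsJ, hsm⟩ := SetLike.not_le_iff_exists.1 hJm
  refine ⟨s, hsm, fun a ha => ?_⟩
  have : a * s ∈ Ideal.span {t} := by
    rw [hJ]
    exact Ideal.mul_mem_mul ha hsJ
  obtain ⟨b, hb⟩ := Ideal.mem_span_singleton'.1 this
  exact ⟨b, by rw [mul_comm s a, ← hb, mul_comm]⟩

end Dedekind

/-! ## The coordinate `t : Spec R → 𝔸¹` is unramified at `m` -/

section Unramified

variable (K : Type u) [Field K] [IsAlgClosed K] (R : Type u) [CommRing R] [Algebra K R]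
  [Algebra.FiniteType K R] [IsDedekindDomain R] [Algebra K[X] R] [IsScalarTower K K[X] R]

attribute [local instance] Ideal.Quotient.field in
theorem isUnramifiedAt_of_uniformizer (m : Ideal R) [m.IsMaximal]
    (ht : algebraMap K[X] R X ∈ m) (ht2 : algebraMap K[X] R X ∉ m ^ 2) :
    Algebra.IsUnramifiedAt K[X] m := by
  set p : Ideal K[X] := m.under K[X] with hp
  have : m.LiesOver p := ⟨rfl⟩
  have hbij := bijective_algebraMap_quotient_of_isMaximal K R m
  have hpmax : p.IsMaximal := by
    have hsurj : Function.Surjective ((Ideal.Quotient.mk m).comp (algebraMap K[X] R)) := by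
      intro y
      obtain ⟨c, rfl⟩ := hbij.2 y
      refine ⟨C c, ?_⟩
      simp only [RingHom.coe_comp, Function.comp_apply]
      rw [← Polynomial.algebraMap_eq, ← IsScalarTower.algebraMap_apply K K[X] R]
      rfl
    have : p = RingHom.ker ((Ideal.Quotient.mk m).comp (algebraMap K[X] R)) := by
      ext x
      rw [RingHom.mem_ker, RingHom.comp_apply, Ideal.Quotient.eq_zero_iff_mem]
      rfl
    rw [this]
    exact RingHom.ker_isMaximal_of_surjective _ hsurj
  letI := Localization.AtPrime.algebraOfLiesOver p m
  have : Algebra.FiniteType K[X] R := .of_restrictScalars_finiteType K K[X] R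
  rw [Algebra.isUnramifiedAt_iff_map_eq K[X] p m]
  refine ⟨?_, ?_⟩
  · have : Algebra.FiniteType K (R ⧸ m) :=
      Algebra.FiniteType.of_surjective (Ideal.Quotient.mkₐ K m) (Ideal.Quotient.mkₐ_surjective K m)
    have : Module.Finite K (R ⧸ m) := finite_of_finite_type_of_isJacobsonRing K (R ⧸ m)
    have : Algebra.IsSeparable K (R ⧸ m) := Algebra.IsAlgebraic.isSeparable_of_perfectField
    have : Algebra.IsSeparable (K[X] ⧸ p) (R ⧸ m) :=
      Algebra.isSeparable_tower_top_of_isSeparable K (K[X] ⧸ p) (R ⧸ m)
    infer_instance
  · obtain ⟨s, hs, hsa⟩ := exists_mul_eq_mul_of_mem m ht ht2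
    have hXp : (X : K[X]) ∈ p := ht
    apply le_antisymm
    · rw [IsScalarTower.algebraMap_eq K[X] R (Localization.AtPrime m), ← Ideal.map_map,
        ← Localization.AtPrime.map_eq_maximalIdeal]
      exact Ideal.map_mono (Ideal.map_le_iff_le_comap.2 le_rfl)
    · rw [← Localization.AtPrime.map_eq_maximalIdeal, Ideal.map_le_iff_le_comap]
      intro a ha
      obtain ⟨b, hb⟩ := hsa a ha
      rw [Ideal.mem_comap]
      have hu : IsUnit (algebraMap R (Localization.AtPrime m) s) :=
        IsLocalization.map_units (M := m.primeCompl) _ ⟨s, hs⟩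
      have h1 : algebraMap R (Localization.AtPrime m) a =
          (hu.unit⁻¹ : (Localization.AtPrime m)ˣ) * algebraMap R (Localization.AtPrime m) b *
            algebraMap K[X] (Localization.AtPrime m) X := by
        rw [IsScalarTower.algebraMap_apply K[X] R (Localization.AtPrime m), mul_assoc,
          ← map_mul, mul_comm b, ← hb, map_mul, ← mul_assoc]
        simp
      rw [h1]
      exact Ideal.mul_mem_left _ _ (Ideal.mem_map_of_mem _ hXp)

end Unramified

/-! ## Main theorem -/

section Main

variable (K : Type u) [Field K] [IsAlgClosed K] (R : Type u) [CommRing R] [Algebra K R]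
  [Algebra.FiniteType K R] [IsDedekindDomain R]

/-- An element of a domain over an algebraically closed field which is algebraic over the field
is a constant. -/
theorem mem_range_algebraMap_of_isAlgebraic {t : R} (h : IsAlgebraic K t) :
    t ∈ (algebraMap K R).range := by
  have hint : IsIntegral K t := h.isIntegral
  exact minpoly.mem_range_of_degree_eq_one K t
    (IsAlgClosed.degree_eq_one_of_irreducible K (minpoly.irreducible hint))

/-- A non-unit `t ∉ m²` is transcendental over `K`. -/
theorem transcendental_of_mem_of_not_mem_sq (m : Ideal R) [hm : m.IsMaximal] {t : R}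
    (ht : t ∈ m) (ht2 : t ∉ m ^ 2) : Transcendental K t := by
  intro halg
  obtain ⟨c, rfl⟩ := mem_range_algebraMap_of_isAlgebraic K R halg
  by_cases hc : c = 0
  · subst hc
    exact ht2 (by simp)
  · have hu : IsUnit (algebraMap K R c) := (IsUnit.mk0 c hc).map (algebraMap K R)
    exact hm.ne_top (Ideal.eq_top_of_isUnit_mem m ht hu)

/-- Local form of T2: every maximal ideal has a basic open neighbourhood which is standard
smooth of relative dimension one over `K`. -/
theorem exists_notMem_isStandardSmoothOfRelativeDimension_one (hR : ¬ IsField R)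
    (m : Ideal R) [hm : m.IsMaximal] :
    ∃ f : R, f ∉ m ∧ Algebra.IsStandardSmoothOfRelativeDimension 1 K (Localization.Away f) := by
  have h0 : m ≠ ⊥ := by
    rintro rfl
    exact hR (Ring.isField_iff_maximal_bot.2 hm)
  obtain ⟨t, ht, ht2⟩ := exists_mem_not_mem_sq m h0
  letI alg : Algebra K[X] R := (Polynomial.aeval t).toRingHom.toAlgebra
  have hX : algebraMap K[X] R X = t := by
    change (Polynomial.aeval t).toRingHom X = t
    simp
  have : IsScalarTower K K[X] R := IsScalarTower.of_algebraMap_eq fun c => by
    change algebraMap K R c = (Polynomial.aeval t).toRingHom (algebraMap K K[X] c)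
    simp
  have hinj : Function.Injective (algebraMap K[X] R) :=
    transcendental_iff_injective.1 (transcendental_of_mem_of_not_mem_sq K R m ht ht2)
  have : Module.IsTorsionFree K[X] R := Module.isTorsionFree_iff_algebraMap_injective.mpr hinj
  have hflat : Module.Flat K[X] R := inferInstance
  have hft : Algebra.FiniteType K[X] R := .of_restrictScalars_finiteType K K[X] R
  have hfp : Algebra.FinitePresentation K[X] R := Algebra.FinitePresentation.of_finiteType.1 hft
  have hunr : Algebra.IsUnramifiedAt K[X] m :=
    isUnramifiedAt_of_uniformizer K R m (hX ▸ ht) (hX ▸ ht2)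
  obtain ⟨f, hf, hfu⟩ := Algebra.exists_formallyUnramified_of_isUnramifiedAt (R := K[X]) m
  refine ⟨f, hf, ?_⟩
  have : Algebra.FinitePresentation R (Localization.Away f) :=
    IsLocalization.Away.finitePresentation f
  have : Algebra.FinitePresentation K[X] (Localization.Away f) :=
    Algebra.FinitePresentation.trans K[X] R (Localization.Away f)
  have : Module.Flat R (Localization.Away f) := IsLocalization.flat _ (Submonoid.powers f)
  have : Module.Flat K[X] (Localization.Away f) := Module.Flat.trans K[X] R (Localization.Away f)
  have het : Algebra.Etale K[X] (Localization.Away f) := Algebra.Etale.of_formallyUnramified_of_flat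
  have h0' : Algebra.IsStandardSmoothOfRelativeDimension 0 K[X] (Localization.Away f) :=
    Algebra.Etale.iff_isStandardSmoothOfRelativeDimension_zero.1 het
  have h1 : Algebra.IsStandardSmoothOfRelativeDimension 1 K K[X] :=
    isStandardSmoothOfRelativeDimension_polynomial K
  have := Algebra.IsStandardSmoothOfRelativeDimension.trans 1 0 K K[X] (Localization.Away f)
  simpa using this

/-- **T2** (regular ⇒ smooth for curves): a Dedekind domain, not a field, of finite type over
an algebraically closed field is smooth of relative dimension one. -/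
theorem locally_isStandardSmooth_of_isDedekindDomain (K : Type u) [Field K] [IsAlgClosed K]
    (R : Type u) [CommRing R] [Algebra K R] [Algebra.FiniteType K R] [IsDedekindDomain R]
    (hR : ¬ IsField R) :
    RingHom.Locally (RingHom.IsStandardSmoothOfRelativeDimension 1) (algebraMap K R) := by
  refine ⟨{f : R | Algebra.IsStandardSmoothOfRelativeDimension 1 K (Localization.Away f)}, ?_, ?_⟩
  · by_contra hne
    obtain ⟨m, hm, hle⟩ := Ideal.exists_le_maximal _ hne
    obtain ⟨f, hf, hsm⟩ := exists_notMem_isStandardSmoothOfRelativeDimension_one K R hR m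
    exact hf (hle (Ideal.subset_span hsm))
  · intro f hf
    rw [← IsScalarTower.algebraMap_eq K R (Localization.Away f)]
    exact (RingHom.isStandardSmoothOfRelativeDimension_algebraMap 1).2 hf

end Main

end Fermat.Agent.S26.H507
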